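/-
Programme S12 (one-step route, helper51's masterplan), brick 9b-COUNT (helper38):
**a Galois-fixed point of prime order `p > 2ℓ + 1` is not in the zero component at `ℓ ≠ p`.**

`W` any integral Weierstrass model, `Q ∈ W(ℚ̄)` fixed by `G_ℚ`, of prime order `p ≠ 2`, `ℓ ≠ p` a prime
with `2ℓ + 1 < p`, `A` a valuation subring of `ℚ̄` over `ℓ`.  If `Q` were in the zero component at `A`
then (torsion of order prime to `ℓ` is integral) all multiples `n • Q` reduce to nonsingular points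
`n • S` of the reduced curve (`InertiaMult.RedTo`), `S` of exact order `p`; the abscissas of `n • S`,
`1 ≤ n ≤ (p-1)/2`, are pairwise distinct and fixed by `z ↦ z^ℓ` (a Frobenius element at `A` fixes `Q`),
so `X^ℓ - X` has at least `(p-1)/2 > ℓ` roots — absurd.
This gives the hypotheses `h2`, `h3` of the frozen statement S15 for the quotient curve `E' = E/N`
(`ℓ = 2, 3`, `p ≥ 11`), with no assumption on the reduction type.
-/
import Mathlib
import Fermat.Agent.InertiaMult.RelQbar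
import Fermat.Agent.InertiaMult.Main
import Fermat.Agent.ES.FROB.FrobFacts12
import Fermat.Prelude.Def_EllipticCurve_ZeroComponentAt

set_option autoImplicit false
set_option linter.unusedSectionVars false

open Polynomial WeierstrassCurve WeierstrassCurve.Affine

namespace Fermat.Agent.S12P.Count38

local notation "Qb" => AlgebraicClosure ℚ
local notation "GQ" => (AlgebraicClosure ℚ ≃ₐ[ℚ] AlgebraicClosure ℚ)

open Fermat.Agent.InertiaMult Fermat.Agent.S05.Inertia Fermat.Agent.S05.Kernel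
open Fermat.Agent.ES.EC.CongE1_20 Fermat.Agent.ES.EC

/-- In a field, at most `ℓ` elements are fixed by `z ↦ z ^ ℓ` (`ℓ ≥ 2`). -/
theorem card_le_of_pow_eq_self {k : Type*} [Field k] [DecidableEq k] {ℓ : ℕ} (hℓ : 2 ≤ ℓ)
    (T : Finset k) (hT : ∀ z ∈ T, z ^ ℓ = z) : T.card ≤ ℓ := by
  have hne : (X ^ ℓ - X : k[X]) ≠ 0 := FiniteField.X_pow_card_sub_X_ne_zero k (by omega)
  have hsub : T ⊆ (X ^ ℓ - X : k[X]).roots.toFinset := by
    intro z hz
    rw [Multiset.mem_toFinset, mem_roots hne]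
    simp [hT z hz]
  calc T.card ≤ (X ^ ℓ - X : k[X]).roots.toFinset.card := Finset.card_le_card hsub
    _ ≤ Multiset.card (X ^ ℓ - X : k[X]).roots := Multiset.toFinset_card_le _
    _ ≤ (X ^ ℓ - X : k[X]).natDegree := card_roots' _
    _ = ℓ := FiniteField.X_pow_card_sub_X_natDegree_eq k (by omega)

/-- The abscissa of a point (`0` at infinity). -/
def xOf {k : Type*} [Field k] {V : Affine k} : V.Point → k
  | .zero => 0
  | .some x _ _ => x

/-- Two affine points with the same abscissa are equal or opposite. -/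
theorem eq_or_eq_neg_of_xOf_eq {k : Type*} [Field k] [DecidableEq k] {V : Affine k}
    {P₁ P₂ : V.Point} (h₁ : P₁ ≠ 0) (h₂ : P₂ ≠ 0) (hx : xOf P₁ = xOf P₂) :
    P₁ = P₂ ∨ P₁ = -P₂ := by
  rcases P₁ with _ | ⟨x₁, y₁, hns₁⟩
  · exact absurd rfl h₁
  rcases P₂ with _ | ⟨x₂, y₂, hns₂⟩
  · exact absurd rfl h₂
  have hx' : x₁ = x₂ := hx
  subst hx'
  rcases Y_eq_of_X_eq hns₁.1 hns₂.1 rfl with hy | hy
  · left; subst hy; rfl
  · right
    rw [Point.neg_some]
    simp only [Point.some.injEq, true_and]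
    exact hy

/-- cancellation of multiples below the order. -/
theorem eq_of_nsmul_eq {G : Type*} [AddGroup G] {S : G} {p : ℕ}
    (h : ∀ n : ℕ, n • S = 0 → p ∣ n) {a b : ℕ} (ha : a < p) (hb : b < p)
    (hab : a • S = b • S) : a = b := by
  wlog hle : a ≤ b generalizing a b
  · exact (this hb ha hab.symm (le_of_not_ge hle)).symm
  obtain ⟨c, rfl⟩ := Nat.exists_eq_add_of_le hle
  rw [add_nsmul, left_eq_add] at hab
  have hc : c = 0 := Nat.eq_zero_of_dvd_of_lt (h c hab) (by omega)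
  omega

/-- **Brick 9b-COUNT.**  A `G_ℚ`-fixed point of prime order `p ≠ 2`, `p > 2ℓ + 1`, on an integral
Weierstrass model is not in the zero component at a place over `ℓ ≠ p`. -/
theorem not_inZeroComponentAt_of_fixed (W : WeierstrassCurve ℤ) {p ℓ : ℕ} (hp : p.Prime)
    (hp2 : p ≠ 2) (hℓ : ℓ.Prime) (hℓp : ℓ ≠ p) (hbig : 2 * ℓ + 1 < p)
    (Q : ((W.map (Int.castRingHom ℚ))⁄Qb).Point) (hQfix : ∀ σ : GQ, σ • Q = Q)
    (hQord : addOrderOf Q = p) (A : ValuationSubring Qb) (hA : A.LiesOverPrime ℓ) :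
    ¬ W.InZeroComponentAt A Q := by
  classical
  intro hZ
  have hpQ : p • Q = 0 := by rw [← hQord]; exact addOrderOf_nsmul_eq_zero Q
  have hQ0 : Q ≠ 0 := by
    intro h0
    rw [h0, addOrderOf_zero] at hQord
    exact hp.one_lt.ne hQord
  have hodd : Odd p := hp.odd_of_ne_two hp2
  have hℓp' : ¬ ℓ ∣ p := fun hd => hℓp ((Nat.prime_dvd_prime_iff_eq hℓ hp).mp hd)
  have hvm : A.valuation ((p : ℕ) : Qb) = 1 := valuation_natCast_eq_one hℓ hA hℓp'
  have hint := integralCoeffs W A
  have hVL := TorsionLift20.baseChange_eq_map W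
  -- the reduction of `Q`
  obtain ⟨S, hS⟩ : ∃ S : (W.map (Int.castRingHom (IsLocalRing.ResidueField A))).toAffine.Point,
      RedTo A Q S := by
    rcases hZ with h0 | ⟨x, y, h, hQ, hcase⟩
    · exact absurd h0 hQ0
    · subst hQ
      have hvx : A.valuation x ≤ 1 := x_integral_of_nsmul_eq_zero hint h hvm hpQ
      rcases hcase with hxA | ⟨hx, hy, hns⟩
      · exact absurd ((A.valuation_le_one_iff x).mp hvx) hxA
      · exact ⟨Point.some _ _ hns, redTo_some ⟨x, hx⟩ ⟨y, hy⟩ h hns⟩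
  have hmul : ∀ n : ℕ, RedTo A (n • Q) (n • S) := fun n =>
    redTo_nsmul W hodd hvm hVL rfl hpQ hS n
  -- `S` has exact order `p`
  have hnS : ∀ n : ℕ, n • S = 0 → p ∣ n := by
    intro n hn
    have h := hmul n
    rw [hn] at h
    have h0 : n • Q = 0 := RedTo.eq_zero h
    rw [← hQord]
    exact addOrderOf_dvd_of_nsmul_eq_zero h0
  -- Frobenius invariance of the abscissas
  obtain ⟨σ, hσ⟩ := Fermat.Agent.ES.FROB.FrobFacts12.exists_isFrobeniusAt_of ℓ hℓ A hA
  have hfrob : ∀ n : ℕ, n • S ≠ 0 → (xOf (n • S)) ^ ℓ = xOf (n • S) := by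
    intro n hn0
    have hfix : σ • (n • Q) = n • Q := by
      show Point.map (W' := W.map (Int.castRingHom ℚ)) σ.toAlgHom (n • Q) = n • Q
      rw [map_nsmul]
      congr 1
      exact hQfix σ
    rcases hmul n with ⟨-, h0⟩ | ⟨a, b, h, h', hR, hRbar⟩
    · exact absurd h0 hn0
    · rw [hRbar]
      show (IsLocalRing.residue A a) ^ ℓ = IsLocalRing.residue A a
      have hσa : σ (a : Qb) = a := by
        rw [hR] at hfix
        exact congrArg xOf hfix
      have hmem : σ (a : Qb) ∈ A := by rw [hσa]; exact a.2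
      have h1 := residue_frob hσ a hmem
      rw [← h1]
      congr 1
      exact Subtype.ext hσa
  -- counting
  have hp3 : 3 ≤ p := by
    have := hp.two_le
    omega
  have hlt : ∀ n ∈ Finset.Icc 1 ((p - 1) / 2), 0 < n ∧ n < p ∧ 2 * n < p := by
    intro n hn
    rw [Finset.mem_Icc] at hn
    omega
  have hne0 : ∀ n ∈ Finset.Icc 1 ((p - 1) / 2), n • S ≠ 0 := by
    intro n hn h0
    obtain ⟨h1, h2, -⟩ := hlt n hn
    exact absurd (Nat.le_of_dvd h1 (hnS n h0)) (by omega)
  have hinj : Set.InjOn (fun n : ℕ => xOf (n • S)) (Finset.Icc 1 ((p - 1) / 2) : Finset ℕ) := by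
    intro n₁ hn₁ n₂ hn₂ hx
    obtain ⟨h1, h2, h3⟩ := hlt n₁ hn₁
    obtain ⟨h1', h2', h3'⟩ := hlt n₂ hn₂
    rcases eq_or_eq_neg_of_xOf_eq (hne0 n₁ hn₁) (hne0 n₂ hn₂) hx with h | h
    · exact eq_of_nsmul_eq hnS h2 h2' h
    · exfalso
      have h0 : (n₁ + n₂) • S = 0 := by rw [add_nsmul, h, neg_add_cancel]
      exact absurd (Nat.le_of_dvd (by omega) (hnS _ h0)) (by omega)
  have hcard : ((Finset.Icc 1 ((p - 1) / 2)).image (fun n : ℕ => xOf (n • S))).card
      = (p - 1) / 2 := by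
    rw [Finset.card_image_of_injOn hinj, Nat.card_Icc]
    omega
  have hle := card_le_of_pow_eq_self hℓ.two_le
    ((Finset.Icc 1 ((p - 1) / 2)).image (fun n : ℕ => xOf (n • S))) (by
      intro z hz
      obtain ⟨n, hn, rfl⟩ := Finset.mem_image.mp hz
      exact hfrob n (hne0 n hn))
  rw [hcard] at hle
  obtain ⟨k, hk⟩ := hodd
  omega

/-- a prime outside `{2, 3, 5, 7, 13}` is `> 7`. -/
theorem seven_lt_of_not_mem {p : ℕ} (hp : p.Prime) (hp' : p ∉ ({2, 3, 5, 7, 13} : Finset ℕ)) :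
    7 < p := by
  by_contra hlt
  have hle : p ≤ 7 := not_lt.mp hlt
  simp only [Finset.mem_insert, Finset.mem_singleton, not_or] at hp'
  interval_cases p <;> first | omega | (exact absurd hp (by decide))

/-- **Hypothesis `h2` of the frozen S15**, for any integral model and any `G_ℚ`-fixed point of order `p`. -/
theorem h2_of_fixed (W : WeierstrassCurve ℤ) {p : ℕ} (hp : p.Prime)
    (hp' : p ∉ ({2, 3, 5, 7, 13} : Finset ℕ))
    (Q : ((W.map (Int.castRingHom ℚ))⁄Qb).Point) (hQfix : ∀ σ : GQ, σ • Q = Q)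
    (hQord : addOrderOf Q = p) :
    ∀ A : ValuationSubring Qb, A.LiesOverPrime 2 → ¬ W.InZeroComponentAt A Q := by
  have h7 := seven_lt_of_not_mem hp hp'
  exact fun A hA => not_inZeroComponentAt_of_fixed W hp (by omega) Nat.prime_two (by omega)
    (by omega) Q hQfix hQord A hA

/-- **Hypothesis `h3` of the frozen S15**, for any integral model and any `G_ℚ`-fixed point of order `p`. -/
theorem h3_of_fixed (W : WeierstrassCurve ℤ) {p : ℕ} (hp : p.Prime)
    (hp' : p ∉ ({2, 3, 5, 7, 13} : Finset ℕ))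
    (Q : ((W.map (Int.castRingHom ℚ))⁄Qb).Point) (hQfix : ∀ σ : GQ, σ • Q = Q)
    (hQord : addOrderOf Q = p) :
    ∀ A : ValuationSubring Qb, A.LiesOverPrime 3 → ¬ W.InZeroComponentAt A Q := by
  have h7 := seven_lt_of_not_mem hp hp'
  exact fun A hA => not_inZeroComponentAt_of_fixed W hp (by omega) Nat.prime_three (by omega)
    (by omega) Q hQfix hQord A hA

end Fermat.Agent.S12P.Count38
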