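/-
Programme S12, brick 757/9a-point for the Frey curve (helper38):
**the image `Q'` of a point `R` under Vélu's map, on the `p`-power scaled integral model `W'`, is a
`G_ℚ`-fixed point of order `p`.**

`E = P.freyCurve⁄ℚ̄`, `t ∈ E[p] \ 0` generating a Galois-stable line, `V' = veluCurve E t p`,
`W'` the integral model `aᵢ(W') = uⁱ aᵢ(V')`, `u = p^k` (`Model57.IsScaledModel`), `R` a point with
`σ R - R ∈ ⟨t⟩` for all `σ` (cofixed line).  If `(veluX R, veluY R)` is a nonsingular point of `V'` of order `p`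
(helper51's VELU-Q), then `(u² veluX R, u³ veluY R)` is a nonsingular point of `W'⁄ℚ̄` of order `p` fixed by
`G_ℚ` (`Top51.exists_scaled_point` + `VeluDef61.galois_veluX/Y`).
-/
import Mathlib
import Fermat.Prelude.Def_FLTPrelim_FreyPackage
import Fermat.Agent.S12P.Top51.ScaledPoint
import Fermat.Agent.S12P.VeluDef61.Galois
import Fermat.Agent.S12P.Model57.ScaleInt

set_option autoImplicit false
set_option linter.unusedSectionVars false

open WeierstrassCurve WeierstrassCurve.Affine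

noncomputable section

namespace Fermat.Agent.S12P.Count38

local notation "Qb" => AlgebraicClosure ℚ

open Fermat.Agent.S12P.VeluDef51 Fermat.Agent.S12P.VeluDef61

/-- **General form** (any curve `W₀` over `ℚ`, any Galois-fixed nonzero scaling factor `u`). -/
theorem scaled_point_of_cofixed (W₀ : WeierstrassCurve ℚ) {p : ℕ} (hp : p.Prime)
    {t : (W₀⁄Qb).Point} (ht : p • t = 0) (ht0 : t ≠ 0)
    (hstab : ∀ σ : Qb ≃ₐ[ℚ] Qb, σ • t ∈ AddSubgroup.zmultiples t)
    {u : Qb} (hu0 : u ≠ 0) (hσu : ∀ σ : Qb ≃ₐ[ℚ] Qb, σ u = u) {W' : WeierstrassCurve ℤ}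
    (hW' : Fermat.Agent.S12P.Model57.IsScaledModel W' (veluCurve (W₀.baseChange Qb) t p) u)
    {R : (W₀⁄Qb).Point}
    (hcof : ∀ σ : Qb ≃ₐ[ℚ] Qb, σ • R - R ∈ AddSubgroup.zmultiples t)
    (hns : (veluCurve (W₀.baseChange Qb) t p).toAffine.Nonsingular
      (veluX (W₀.baseChange Qb) t p R) (veluY (W₀.baseChange Qb) t p R))
    (hord : addOrderOf (Point.some _ _ hns) = p) :
    ∃ hns' : ((W'.map (Int.castRingHom ℚ))⁄Qb).Nonsingular
        (u ^ 2 * veluX (W₀.baseChange Qb) t p R) (u ^ 3 * veluY (W₀.baseChange Qb) t p R),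
      addOrderOf (Point.some _ _ hns' : ((W'.map (Int.castRingHom ℚ))⁄Qb).Point) = p ∧
      ∀ σ : Qb ≃ₐ[ℚ] Qb, σ • (Point.some _ _ hns' : ((W'.map (Int.castRingHom ℚ))⁄Qb).Point)
        = Point.some _ _ hns' := by
  obtain ⟨hns', hord', hfix⟩ := Fermat.Agent.S12P.Top51.exists_scaled_point W' hu0
    hW'.h₁ hW'.h₂ hW'.h₃ hW'.h₄ hW'.h₆ hns
  refine ⟨hns', hord'.trans hord, hfix hσu (fun σ => ?_) (fun σ => ?_)⟩
  · exact galois_veluX σ hp ht ht0 (hstab σ) (hcof σ)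
  · exact galois_veluY σ hp ht ht0 (hstab σ) (hcof σ)

/-- **9a-point for the Frey curve**, `u = p ^ k`. -/
theorem frey_scaled_point (P : FreyPackage) {t : (P.freyCurve⁄Qb).Point} (ht : P.p • t = 0)
    (ht0 : t ≠ 0) (hstab : ∀ σ : Qb ≃ₐ[ℚ] Qb, σ • t ∈ AddSubgroup.zmultiples t)
    {k : ℕ} {W' : WeierstrassCurve ℤ}
    (hW' : Fermat.Agent.S12P.Model57.IsScaledModel W'
      (veluCurve (P.freyCurve.baseChange Qb) t P.p) ((P.p : Qb) ^ k))
    {R : (P.freyCurve⁄Qb).Point}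
    (hcof : ∀ σ : Qb ≃ₐ[ℚ] Qb, σ • R - R ∈ AddSubgroup.zmultiples t)
    (hns : (veluCurve (P.freyCurve.baseChange Qb) t P.p).toAffine.Nonsingular
      (veluX (P.freyCurve.baseChange Qb) t P.p R) (veluY (P.freyCurve.baseChange Qb) t P.p R))
    (hord : addOrderOf (Point.some _ _ hns) = P.p) :
    ∃ hns' : ((W'.map (Int.castRingHom ℚ))⁄Qb).Nonsingular
        (((P.p : Qb) ^ k) ^ 2 * veluX (P.freyCurve.baseChange Qb) t P.p R)
        (((P.p : Qb) ^ k) ^ 3 * veluY (P.freyCurve.baseChange Qb) t P.p R),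
      addOrderOf (Point.some _ _ hns' : ((W'.map (Int.castRingHom ℚ))⁄Qb).Point) = P.p ∧
      ∀ σ : Qb ≃ₐ[ℚ] Qb, σ • (Point.some _ _ hns' : ((W'.map (Int.castRingHom ℚ))⁄Qb).Point)
        = Point.some _ _ hns' := by
  have hp0 : (P.p : Qb) ≠ 0 := Nat.cast_ne_zero.mpr P.pp.ne_zero
  exact scaled_point_of_cofixed P.freyCurve P.pp ht ht0 hstab (pow_ne_zero k hp0)
    (fun σ => by rw [map_pow, map_natCast]) hW' hcof hns hord

end Fermat.Agent.S12P.Count38
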